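import Fermat.Agent.S43.ThK.Hecke
import Fermat.Agent.S43.F.Abs
import Fermat.Agent.S43.CH.Cyc
import Fermat.Agent.S15.W.Mod
import Fermat.Agent.S37.Red.FF1

/-!
# S43 / ThK / Push : adjunction for `π^*`, `π_*` and `coker π_*` has trivial Galois action

* `ff1_F1`                 : `F1(N)` is a function field of one variable (`S26.FF1`);
* `e1K_pull`               : `e(π^* x, y) = e(x, π_* y)`;
* `pull_eq_zero_of_perp`   : `x ⊥ im π_*  →  π^* x = 0`;
* `exists_push_eq_gal_sub` : for all `x ∈ ES.Kum N m`, `σ ∈ G_ℚ`:  `σ x - x ∈ im π_*`.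
-/

set_option autoImplicit false
set_option linter.style.haveILetI false

open AlgebraicCurve ModularCurve

namespace Fermat.Agent.S43.ThK

open Fermat.Agent.S48
open Fermat.Agent.ES (Qb GQ FF)

noncomputable section

variable {N : ℕ} [NeZero N] (hN : 5 ≤ N)

include hN in
/-- `F1(N)` is a function field of one variable over `ℚ̄`. -/
theorem ff1_F1 : S26.FF1 Qb (X1.F1Q N).F := by
  haveI := (X1.modelB1 N hN).fin
  exact S37.Red.ff1_of_finiteDimensional (X1.modelB1 N hN).tr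

/-- adjunction. -/
theorem e1K_pull [S26.FF1 Qb (X1.F1Q N).F] {m : ℕ} (hm : m ≠ 0) (x : ES.Kum N m)
    (y : B1.Kum Qb (X1.F1Q N).F m) :
    S15.W.e1K (R0.pull hN m x) y = S15.W.e1N x (R0.push hN m y) := by
  letI : Algebra (FF N) (X1.F1Q N).F := algebraAlong (R0.incl hN)
  haveI : IsScalarTower Qb (FF N) (X1.F1Q N).F := isScalarTower_along (R0.incl hN)
  haveI : Module.Finite (FF N) (X1.F1Q N).F := R0.finite_along hN
  obtain ⟨f, rfl⟩ := ES.Kum.mk_surjective x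
  obtain ⟨g, rfl⟩ := B1.Kum.mk_surjective y
  rw [R0.pull_mk, R0.push_mk, S15.W.e1K_mk hm, S15.W.e1N_mk hm]
  exact S15.W.e1_proj hm (S15.W.M3_isDm f) (S15.W.isDm_coe g)

/-- a class orthogonal to the image of `π_*` is killed by `π^*`. -/
theorem pull_eq_zero_of_perp {m : ℕ} (hm : m ≠ 0) (κ : ES.Kum N m)
    (h : ∀ y : B1.Kum Qb (X1.F1Q N).F m, S15.W.e1N (R0.push hN m y) κ = 1) :
    R0.pull hN m κ = 0 := by
  haveI := ff1_F1 hN
  apply ND.eq_zero_of_e1K_left hm S24.iotaC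
  intro y
  rw [e1K_pull hN hm, S15.W.e1N_symm hm, h y, inv_one]

/-- **`coker π_*` has trivial Galois action.** -/
theorem exists_push_eq_gal_sub {m : ℕ} (hm : 0 < m) [Finite (ES.Kum N m)] (x : ES.Kum N m)
    (σ : GQ) : ∃ y : B1.Kum Qb (X1.F1Q N).F m, R0.push hN m y = ES.galKum N m σ x - x := by
  haveI : NeZero m := ⟨hm.ne'⟩
  have hm0 : m ≠ 0 := hm.ne'
  have h0 : ∀ a b : ES.Kum N m, S15.W.e1NHom hm0 a b = 0 ↔ S15.W.e1N a b = 1 := by
    intro a b
    constructor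
    · intro h
      rw [← S15.W.e1NHom_apply hm0, h]
      rfl
    · intro h
      apply Additive.toMul.injective
      apply Units.ext
      rw [S15.W.e1NHom_apply hm0, h]
      rfl
  have hnd : ∀ a : ES.Kum N m, (∀ b, S15.W.e1NHom hm0 b a = 0) → a = 0 := by
    intro a ha
    have h1 : S15.W.toB1 N m a = 0 :=
      ND.eq_zero_of_e1K_right hm0 S24.iotaC fun b => (h0 ((S15.W.toB1 N m).symm b) a).1 (ha _)
    exact (S15.W.toB1 N m).injective (h1.trans (map_zero _).symm)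
  have key := F.mem_of_perp (S15.W.e1NHom hm0) hnd (R0.push hN m).range
    (ES.galKum N m σ x - x) ?_
  · obtain ⟨y, hy⟩ := key
    exact ⟨y, hy⟩
  · intro κ hκ
    have hpull : R0.pull hN m κ = 0 :=
      pull_eq_zero_of_perp hN hm0 κ fun y => (h0 _ _).1 (hκ _ ⟨y, rfl⟩)
    -- `σ⁻¹ κ = e • κ`
    set e : ℕ := (((CH.cyc m σ⁻¹ : (ZMod m)ˣ) : ZMod m)).val with he
    have hσ : ∀ ζ : Qb, ζ ^ m = 1 → σ⁻¹ ζ = ζ ^ e := fun ζ hζ => CH.cyc_spec m σ⁻¹ ζ hζ
    have h1 : ES.galKum N m σ⁻¹ κ = e • κ := gal_of_pull_eq_zero hN hm κ hpull σ⁻¹ e hσ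
    have h2 : κ = ES.galKum N m σ (e • κ) := by
      rw [← h1, ← ES.galKum_mul, mul_inv_cancel, ES.galKum_one]
    have h3 : S15.W.e1N (ES.galKum N m σ x) κ = S15.W.e1N x κ := by
      conv_lhs => rw [h2]
      rw [S15.W.e1N_gal hm0]
      have h4 : S15.W.e1N x (e • κ) = S15.W.e1N x κ ^ e := by
        have := S15.W.e1K_nsmul_right hm0 e (S15.W.toB1 N m x) (S15.W.toB1 N m κ)
        rw [← map_nsmul] at this
        exact this
      rw [h4, ← hσ _ (S15.W.e1N_pow hm0 x κ)]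
      show σ (σ⁻¹ (S15.W.e1N x κ)) = _
      exact AlgEquiv.apply_symm_apply σ _
    rw [map_sub, AddMonoidHom.sub_apply, sub_eq_zero]
    apply Additive.toMul.injective
    apply Units.ext
    rw [S15.W.e1NHom_apply hm0, S15.W.e1NHom_apply hm0, h3]

end

end Fermat.Agent.S43.ThK
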