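import Fermat.Agent.S43.R0.Push
import Fermat.Agent.ES.B.ToD

/-!
# S43 / ThK / Hecke : `π^*`, `π_*` between `ES.Kum N m` and `KK = B1.Kum Qb (F1Q N).F m` are Hecke equivariant

* `T_ℓ` on `KK` is `B1.heckeKum (R0.HD hN) hD ℓ`, `hD : (R0.HD hN).PreservesDm m` (e.g. `CH.preservesDm_F1 N hN hm`);
* `pull_hecke`   : `π^* T_ℓ = T_ℓ π^*`;
* `push_hecke`   : `π_* T_ℓ = T_ℓ π_*` (odd exponent);
* `gal_of_pull_eq_zero` : `ker π^*` is an abelian Galois module: `π^* x = 0 → σ x = e • x` if `σ ζ = ζ ^ e` on `μ_m`.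
-/

set_option autoImplicit false

open AlgebraicCurve ModularCurve

namespace Fermat.Agent.S43.ThK

open Fermat.Agent.S48
open Fermat.Agent.ES (Qb GQ FF)

noncomputable section

variable {N : ℕ} [NeZero N] (hN : 5 ≤ N)

theorem incl_heckeF (ℓ : ES.D.GoodPrime N) (f : FF N) :
    (R0.HD hN).heckeF ℓ (R0.incl hN f) = R0.incl hN (ES.heckeF N ℓ.1 ℓ.2.1 ℓ.2.2 f) := by
  apply Subtype.ext
  have h : (R0.HD hN).dia (B1.gpUnit ℓ) (R0.incl hN f) = R0.incl hN f := R0.dia_incl hN _ f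
  rw [B1.HeckeData.coe_heckeF, h, R0.coe_incl, R0.coe_incl, ES.coe_heckeF]
  rfl

/-- `π^* T_ℓ = T_ℓ π^*`. -/
theorem pull_hecke {m : ℕ} (hD : (R0.HD hN).PreservesDm m) (ℓ : ES.D.GoodPrime N)
    (x : ES.Kum N m) :
    R0.pull hN m (ES.heckeKum N ℓ.1 ℓ.2.1 ℓ.2.2 m x)
      = B1.heckeKum (R0.HD hN) hD ℓ (R0.pull hN m x) := by
  obtain ⟨f, rfl⟩ := ES.Kum.mk_surjective x
  rw [ES.heckeKum_mk, R0.pull_mk, R0.pull_mk, B1.heckeKum_mk]
  exact congrArg B1.Kum.mk (Subtype.ext (Units.ext (incl_heckeF hN ℓ _).symm))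

theorem nmF_heckeF_sq (ℓ : ES.D.GoodPrime N) (f : (X1.F1Q N).F) :
    R0.nmF hN ((R0.HD hN).heckeF ℓ f) ^ 2 = ES.heckeF N ℓ.1 ℓ.2.1 ℓ.2.2 (R0.nmF hN f) ^ 2 := by
  apply R0.incl_injective hN
  rw [map_pow, R0.incl_nmF_sq, map_pow, ← incl_heckeF, ← map_pow, R0.incl_nmF_sq, map_prod]
  refine Finset.prod_congr rfl fun d _ => ?_
  exact (R0.HD hN).dia_heckeF d ℓ f

theorem two_nsmul_push_hecke {m : ℕ} (hD : (R0.HD hN).PreservesDm m) (ℓ : ES.D.GoodPrime N)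
    (y : B1.Kum Qb (X1.F1Q N).F m) :
    2 • R0.push hN m (B1.heckeKum (R0.HD hN) hD ℓ y)
      = 2 • ES.heckeKum N ℓ.1 ℓ.2.1 ℓ.2.2 m (R0.push hN m y) := by
  obtain ⟨f, rfl⟩ := B1.Kum.mk_surjective y
  rw [B1.heckeKum_mk, R0.push_mk, R0.push_mk, ES.heckeKum_mk, ← ES.Kum.mk_pow, ← ES.Kum.mk_pow]
  exact congrArg ES.Kum.mk (Subtype.ext (Units.ext (nmF_heckeF_sq hN ℓ _)))

omit [NeZero N] in
theorem eq_of_two_nsmul {m : ℕ} (hm : Odd m) {a b : ES.Kum N m} (h : 2 • a = 2 • b) : a = b := by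
  obtain ⟨k, hk⟩ := hm
  have e : ∀ c : ES.Kum N m, c = -(k • (2 • c)) := by
    intro c
    have h1 : (2 * k + 1) • c = 0 := by
      have h2 := ES.Kum.nsmul_eq_zero c
      exact (congrArg (fun j : ℕ => j • c) hk).symm.trans h2
    rw [succ_nsmul, mul_nsmul] at h1
    exact eq_neg_of_add_eq_zero_right h1
  rw [e a, e b, h]

/-- `π_* T_ℓ = T_ℓ π_*`. -/
theorem push_hecke {m : ℕ} (hD : (R0.HD hN).PreservesDm m) (hodd : Odd m)
    (ℓ : ES.D.GoodPrime N) (y : B1.Kum Qb (X1.F1Q N).F m) :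
    R0.push hN m (B1.heckeKum (R0.HD hN) hD ℓ y)
      = ES.heckeKum N ℓ.1 ℓ.2.1 ℓ.2.2 m (R0.push hN m y) :=
  eq_of_two_nsmul hodd (two_nsmul_push_hecke hN hD ℓ y)

/-! ### the kernel of `π^*` -/

/-- an `m`-th root of unity of `F1(N)` is a constant. -/
theorem exists_const_of_pow_eq_one {m : ℕ} (hm : 0 < m) (u : (X1.F1Q N).F) (hu : u ^ m = 1) :
    ∃ ζ : Qb, ζ ^ m = 1 ∧ u = algebraMap Qb (X1.F1Q N).F ζ := by
  have : NeZero m := ⟨hm.ne'⟩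
  obtain ⟨z, hz⟩ := ES.exists_primitiveRoot_Qb m
  have hz' : IsPrimitiveRoot (algebraMap Qb (X1.F1Q N).F z) m :=
    hz.map_of_injective (algebraMap Qb (X1.F1Q N).F).injective
  obtain ⟨i, -, hi⟩ := hz'.eq_pow_of_pow_eq_one hu
  refine ⟨z ^ i, ?_, ?_⟩
  · rw [← pow_mul, mul_comm, pow_mul, hz.pow_eq_one, one_pow]
  · rw [map_pow, hi]

/-- **`ker π^*` is an abelian Galois module** (with the cyclotomic action). -/
theorem gal_of_pull_eq_zero {m : ℕ} (hm : 0 < m) (x : ES.Kum N m) (hx : R0.pull hN m x = 0)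
    (σ : GQ) (e : ℕ) (hσ : ∀ ζ : Qb, ζ ^ m = 1 → σ ζ = ζ ^ e) :
    ES.galKum N m σ x = e • x := by
  obtain ⟨f, rfl⟩ := ES.Kum.mk_surjective x
  rw [R0.pull_mk, B1.Kum.mk_eq_zero_iff] at hx
  obtain ⟨h, hh⟩ := hx
  have hh' : (h : (X1.F1Q N).F) ^ m = R0.incl hN ((f : (FF N)ˣ) : FF N) := by
    have := congrArg (fun u : (X1.F1Q N).Fˣ => (u : (X1.F1Q N).F)) hh
    simpa using this
  have h0 : (h : (X1.F1Q N).F) ≠ 0 := h.ne_zero
  -- the function `g = σ h / h ^ e` is fixed by the diamond operators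
  set g : (X1.F1Q N).F := (X1.F1Q N).galF σ (h : (X1.F1Q N).F) * ((h : (X1.F1Q N).F) ^ e)⁻¹ with hg
  have hfix : ∀ d : (ZMod N)ˣ, An1.dia (R0.DD hN) d g = g := by
    intro d
    have h1 : (An1.dia (R0.DD hN) d (h : (X1.F1Q N).F) * (h : (X1.F1Q N).F)⁻¹) ^ m = 1 := by
      rw [mul_pow, ← map_pow, hh', R0.dia_incl, inv_pow, ← hh', mul_inv_cancel₀ (pow_ne_zero _ h0)]
    obtain ⟨ζ, hζ, hζd⟩ := exists_const_of_pow_eq_one hm _ h1
    have h2 : An1.dia (R0.DD hN) d (h : (X1.F1Q N).F)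
        = algebraMap Qb (X1.F1Q N).F ζ * (h : (X1.F1Q N).F) := by
      rw [← hζd, mul_assoc, inv_mul_cancel₀ h0, mul_one]
    have h3 : An1.dia (R0.DD hN) d ((X1.F1Q N).galF σ (h : (X1.F1Q N).F))
        = (X1.F1Q N).galF σ (An1.dia (R0.DD hN) d (h : (X1.F1Q N).F)) :=
      (R0.HD hN).dia_gal d σ _
    have hζ0 : algebraMap Qb (X1.F1Q N).F ζ ≠ 0 := by
      rw [Ne, map_eq_zero]
      rintro rfl
      rw [zero_pow hm.ne'] at hζ
      exact zero_ne_one hζ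
    rw [hg, map_mul, map_inv₀, map_pow, h3, h2, map_mul, B1.QField.galF_algebraMap, hσ ζ hζ,
      map_pow, mul_pow]
    field_simp
  obtain ⟨g0, hg0⟩ := R0.mem_range_incl hN g hfix
  have hgm : g0 ^ m = ES.galF N σ ((f : (FF N)ˣ) : FF N) * (((f : (FF N)ˣ) : FF N) ^ e)⁻¹ := by
    apply R0.incl_injective hN
    rw [map_pow, hg0, hg, mul_pow, ← map_pow, hh', R0.galF_incl, map_mul, map_inv₀, map_pow,
      inv_pow, ← pow_mul, mul_comm e m, pow_mul, hh']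
  have hg00 : g0 ≠ 0 := by
    rintro rfl
    rw [zero_pow hm.ne'] at hgm
    have h1 : ES.galF N σ ((f : (FF N)ˣ) : FF N) ≠ 0 := by
      rw [Ne, map_eq_zero]
      exact (f : (FF N)ˣ).ne_zero
    exact mul_ne_zero h1 (inv_ne_zero (pow_ne_zero _ (f : (FF N)ˣ).ne_zero)) hgm.symm
  rw [ES.galKum_mk, ← ES.Kum.mk_pow, ES.Kum.mk_eq_mk_iff]
  refine ⟨Units.mk0 g0 hg00, Units.ext ?_⟩
  rw [Units.val_pow_eq_pow_val, Units.val_mk0, hgm]
  simp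

end

end Fermat.Agent.S43.ThK
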